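/-
Programme S33, A-half, piece (S5) COORDINATES (helper22; names and binders of helper16's interface
report 1307).  Mathlib only.

`Z` a commutative ring (`Z = ℤ_[p]`), `T` a `Z`-algebra with a finite `Z`-basis
`bT : Module.Basis ι Z T` (`T` finite free over `ℤ_p`), `M`, `M''` `Z`-modules (Tate modules).

* `coord bT j : T ⊗[Z] M →ₗ[Z] M` (the `j`-th coordinate), `coord_tmul`, `eq_sum_tmul_coord`,
  `eq_zero_of_coord`, `coord_injective`;
* `coord_baseChange` : `coord bT j (f.baseChange T x) = f (coord bT j x)`;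
* `baseChange_eq_zero_iff_coord`, `baseChange_eq_zero_of_ker` : if `f` kills `ker β` then
  `f.baseChange T` kills `ker (β.baseChange T)` (no flatness argument: coordinates);
* `torsionFree_tensor`, `torsionFree_pi_tensor`;
* `flat bT r : (Fin r → T ⊗[Z] M'') →ₗ[Z] (Fin r × ι → M'')`, `flat_apply`, `flat_injective`,
  `flat_baseChange`; `flatFin` (the same reindexed by `Fin κ`, `κ = card (Fin r × ι)`),
  `flatFin_injective`, `flatFin_baseChange`;
* `coord_smul` : the `T`-module structure of `T ⊗[Z] M` in coordinates;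
* `exists_coord_embedding` : an injective equivariant `Ψ : Λ → (Fin r → T ⊗[Z] M'')` yields an
  injective `Z`-linear equivariant `Φ : Λ → (Fin κ → M'')` (input shape of O4).
-/
import Mathlib

set_option autoImplicit false
set_option linter.unusedSectionVars false

open TensorProduct

namespace Fermat.Agent.S33P.Coord22

variable {Z : Type*} [CommRing Z] {T : Type*} [CommRing T] [Algebra Z T]
  {ι : Type*} [Fintype ι] (bT : Module.Basis ι Z T)
  {M : Type*} [AddCommGroup M] [Module Z M] {M'' : Type*} [AddCommGroup M''] [Module Z M'']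

/-! ### Coordinates -/

/-- **The `j`-th coordinate** `T ⊗[Z] M → M` with respect to a `Z`-basis of `T`. -/
noncomputable def coord (j : ι) : T ⊗[Z] M →ₗ[Z] M :=
  (TensorProduct.lid Z M).toLinearMap ∘ₗ (bT.coord j).rTensor M

@[simp] theorem coord_tmul (j : ι) (t : T) (m : M) :
    coord bT j (t ⊗ₜ[Z] m) = bT.repr t j • m := by
  rw [coord, LinearMap.comp_apply, LinearMap.rTensor_tmul, LinearEquiv.coe_coe,
    TensorProduct.lid_tmul, Module.Basis.coord_apply]

/-- Every element of `T ⊗[Z] M` is `∑ j, bT j ⊗ (its j-th coordinate)`. -/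
theorem eq_sum_tmul_coord (x : T ⊗[Z] M) : x = ∑ j, bT j ⊗ₜ[Z] coord bT j x := by
  induction x using TensorProduct.induction_on with
  | zero => simp only [map_zero, TensorProduct.tmul_zero, Finset.sum_const_zero]
  | tmul t m =>
    simp only [coord_tmul]
    conv_lhs => rw [← bT.sum_repr t, TensorProduct.sum_tmul]
    refine Finset.sum_congr rfl fun j _ => ?_
    rw [TensorProduct.smul_tmul]
  | add x y hx hy =>
    simp only [map_add, TensorProduct.tmul_add, Finset.sum_add_distrib]
    rw [← hx, ← hy]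

/-- An element all of whose coordinates vanish is zero. -/
theorem eq_zero_of_coord (x : T ⊗[Z] M) (h : ∀ j, coord bT j x = 0) : x = 0 := by
  rw [eq_sum_tmul_coord bT x]
  refine Finset.sum_eq_zero fun j _ => ?_
  rw [h j, TensorProduct.tmul_zero]

/-- The coordinates are jointly injective. -/
theorem coord_injective {x y : T ⊗[Z] M} (h : ∀ j, coord bT j x = coord bT j y) : x = y := by
  rw [← sub_eq_zero]
  refine eq_zero_of_coord bT _ fun j => ?_
  rw [map_sub, h j, sub_self]

/-- **Naturality of the coordinates**: `coord ∘ (f.baseChange T) = f ∘ coord`. -/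
theorem coord_baseChange (f : M →ₗ[Z] M'') (j : ι) (x : T ⊗[Z] M) :
    coord bT j (f.baseChange T x) = f (coord bT j x) := by
  induction x using TensorProduct.induction_on with
  | zero => simp only [map_zero]
  | tmul t m => rw [LinearMap.baseChange_tmul, coord_tmul, coord_tmul, map_smul]
  | add x y hx hy => simp only [map_add, hx, hy]

/-- `β.baseChange T x = 0` iff `β` kills all the coordinates of `x`. -/
theorem baseChange_eq_zero_iff_coord (β : M →ₗ[Z] M'') (x : T ⊗[Z] M) :
    β.baseChange T x = 0 ↔ ∀ j, β (coord bT j x) = 0 := by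
  constructor
  · intro h j
    rw [← coord_baseChange, h, map_zero]
  · intro h
    refine eq_zero_of_coord bT _ fun j => ?_
    rw [coord_baseChange, h j]

include bT in
/-- **If `f` kills `ker β` then `f.baseChange T` kills `ker (β.baseChange T)`.** -/
theorem baseChange_eq_zero_of_ker {M₂ : Type*} [AddCommGroup M₂] [Module Z M₂]
    (β : M →ₗ[Z] M'') (f : M →ₗ[Z] M₂) (h : ∀ m, β m = 0 → f m = 0)
    (x : T ⊗[Z] M) (hx : β.baseChange T x = 0) : f.baseChange T x = 0 := by
  rw [baseChange_eq_zero_iff_coord bT] at hx ⊢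
  exact fun j => h _ (hx j)

/-- The `T`-module structure of `T ⊗[Z] M` in coordinates: multiplication by `t` acts on the
coordinates through the matrix of `t` in the basis `bT`. -/
theorem coord_smul (t : T) (x : T ⊗[Z] M) (i : ι) :
    coord bT i (t • x) = ∑ j, bT.repr (t * bT j) i • coord bT j x := by
  induction x using TensorProduct.induction_on with
  | zero => simp only [smul_zero, map_zero, Finset.sum_const_zero]
  | tmul s m =>
    rw [TensorProduct.smul_tmul', smul_eq_mul, coord_tmul]
    simp only [coord_tmul]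
    have hs : t * s = ∑ j, bT.repr s j • (t * bT j) := by
      conv_lhs => rw [← bT.sum_repr s, Finset.mul_sum]
      refine Finset.sum_congr rfl fun j _ => ?_
      rw [mul_smul_comm]
    rw [hs, map_sum, Finset.sum_apply', Finset.sum_smul]
    refine Finset.sum_congr rfl fun j _ => ?_
    rw [map_smul, Finsupp.smul_apply, smul_eq_mul, smul_smul, mul_comm]
  | add x y hx hy =>
    simp only [smul_add, map_add, hx, hy, Finset.sum_add_distrib]

/-! ### Torsion-freeness -/

include bT in
/-- `T ⊗[Z] M''` is `Z`-torsion-free if `M''` is (explicit form, scalars through `T`). -/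
theorem torsionFree_tensor (hM : ∀ z : Z, z ≠ 0 → ∀ m : M'', z • m = 0 → m = 0) :
    ∀ z : Z, z ≠ 0 → ∀ x : T ⊗[Z] M'', algebraMap Z T z • x = 0 → x = 0 := by
  intro z hz x hx
  rw [algebraMap_smul] at hx
  refine eq_zero_of_coord bT x fun j => hM z hz _ ?_
  rw [← map_smul, hx, map_zero]

include bT in
/-- The `Pi` version of `torsionFree_tensor`. -/
theorem torsionFree_pi_tensor {κ : Type*}
    (hM : ∀ z : Z, z ≠ 0 → ∀ m : M'', z • m = 0 → m = 0) :
    ∀ z : Z, z ≠ 0 → ∀ x : κ → T ⊗[Z] M'', algebraMap Z T z • x = 0 → x = 0 := by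
  intro z hz x hx
  funext i
  exact torsionFree_tensor bT hM z hz (x i) (congrFun hx i)

/-! ### Flattening `(T ⊗ M'')^r` to a power of `M''` -/

/-- **Flattening**: `(T ⊗[Z] M'')^r → M''^(r × ι)`, all the coordinates of all the components. -/
noncomputable def flat (r : ℕ) : (Fin r → T ⊗[Z] M'') →ₗ[Z] (Fin r × ι → M'') :=
  LinearMap.pi fun k : Fin r × ι => coord bT k.2 ∘ₗ LinearMap.proj k.1

@[simp] theorem flat_apply (r : ℕ) (x : Fin r → T ⊗[Z] M'') (k : Fin r × ι) :
    flat bT r x k = coord bT k.2 (x k.1) := rfl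

theorem flat_injective (r : ℕ) : Function.Injective (flat (M'' := M'') bT r) := by
  intro x y h
  funext i
  refine coord_injective bT fun j => ?_
  exact congrFun h (i, j)

theorem flat_baseChange (r : ℕ) (f : Module.End Z M'') (x : Fin r → T ⊗[Z] M'')
    (k : Fin r × ι) : flat bT r (fun i => f.baseChange T (x i)) k = f (flat bT r x k) := by
  rw [flat_apply, flat_apply, coord_baseChange]

/-- The number of coordinates of `(T ⊗ M'')^r`. -/
noncomputable abbrev flatCard (ι : Type*) [Fintype ι] (r : ℕ) : ℕ := Fintype.card (Fin r × ι)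

/-- `flat` reindexed by `Fin κ`, `κ = card (Fin r × ι)`. -/
noncomputable def flatFin (r : ℕ) : (Fin r → T ⊗[Z] M'') →ₗ[Z] (Fin (flatCard ι r) → M'') :=
  (LinearEquiv.funCongrLeft Z M'' (Fintype.equivFin (Fin r × ι)).symm).toLinearMap ∘ₗ flat bT r

theorem flatFin_apply (r : ℕ) (x : Fin r → T ⊗[Z] M'') (k : Fin (flatCard ι r)) :
    flatFin bT r x k = flat bT r x ((Fintype.equivFin (Fin r × ι)).symm k) := rfl

theorem flatFin_injective (r : ℕ) : Function.Injective (flatFin (M'' := M'') bT r) := by
  rw [flatFin, LinearMap.coe_comp, LinearEquiv.coe_coe]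
  exact (LinearEquiv.injective _).comp (flat_injective bT r)

theorem flatFin_baseChange (r : ℕ) (f : Module.End Z M'') (x : Fin r → T ⊗[Z] M'')
    (k : Fin (flatCard ι r)) :
    flatFin bT r (fun i => f.baseChange T (x i)) k = f (flatFin bT r x k) := by
  rw [flatFin_apply, flatFin_apply, flat_baseChange]

/-! ### From `T ⊗ M''`-coordinates to `M''`-coordinates -/

section Embedding

variable {G : Type*} {Λ : Type*} [AddCommGroup Λ] [Module Z Λ]

include bT in
/-- `Z`-linear form: an injective `Z`-linear `Ψ : Λ → (T ⊗[Z] M'')^r`, equivariant for `ρ g` on `Λ`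
and `(ρM g).baseChange T` on the target, yields an injective `Z`-linear `Φ : Λ → M''^κ`, equivariant
for `ρ g` and `ρM g`. -/
theorem exists_coord_embedding_of_linear (ρ : G → Λ → Λ) (ρM : G → Module.End Z M'') {r : ℕ}
    (Ψ : Λ →ₗ[Z] (Fin r → T ⊗[Z] M'')) (hΨ : Function.Injective Ψ)
    (heq : ∀ g v i, Ψ (ρ g v) i = (ρM g).baseChange T (Ψ v i)) :
    ∃ (κ : ℕ) (Φ : Λ →ₗ[Z] (Fin κ → M'')), Function.Injective Φ ∧
      ∀ g v k, Φ (ρ g v) k = ρM g (Φ v k) := by
  refine ⟨flatCard ι r, flatFin bT r ∘ₗ Ψ, ?_, ?_⟩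
  · rw [LinearMap.coe_comp]
    exact (flatFin_injective bT r).comp hΨ
  · intro g v k
    rw [LinearMap.comp_apply, LinearMap.comp_apply, ← flatFin_baseChange bT r (ρM g) (Ψ v) k]
    have h : Ψ (ρ g v) = fun i => (ρM g).baseChange T (Ψ v i) := funext fun i => heq g v i
    rw [h]

variable [Module T Λ] [IsScalarTower Z T Λ]

include bT in
/-- `T`-linear input (the shape produced by `Embed34.exists_embedding_T`): `Λ` a `T`-module,
`Ψ : Λ →ₗ[T] (T ⊗[Z] M'')^r` injective and equivariant.  Output: an injective `Z`-linear equivariant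
`Φ : Λ → M''^κ`. -/
theorem exists_coord_embedding (ρ : G → Λ → Λ) (ρM : G → Module.End Z M'') {r : ℕ}
    (Ψ : Λ →ₗ[T] (Fin r → T ⊗[Z] M'')) (hΨ : Function.Injective Ψ)
    (heq : ∀ g v i, Ψ (ρ g v) i = (ρM g).baseChange T (Ψ v i)) :
    ∃ (κ : ℕ) (Φ : Λ →ₗ[Z] (Fin κ → M'')), Function.Injective Φ ∧
      ∀ g v k, Φ (ρ g v) k = ρM g (Φ v k) :=
  exists_coord_embedding_of_linear bT ρ ρM (Ψ.restrictScalars Z) hΨ heq

end Embedding

end Fermat.Agent.S33P.Coord22
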