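/-
Programme S33, A-half, piece (β) TENSOR PLUMBING over `Z = ℤ_[p]` with `T` flat / finite free
(helper22).  Mathlib + `Coord22/Coord`.

`Z` a commutative ring, `T` a `Z`-algebra, `M`, `M''` `Z`-modules (`M = Ta_p J₀(N')`,
`M'' = Ta_p J₀(N'/p)²`, `β = (π₁, π₂)_*`), `K ≤ M` a `Z`-submodule (`K = ker β`).

* `tensorSub T K : Submodule T (T ⊗[Z] M)` = "`T ⊗ K`" := the range of `K.subtype.baseChange T`;
  `tmul_mem_tensorSub`, `tensorSub_eq_span`, `tensorSub_mono`, `mem_tensorSub_iff_coord`
  (`T` free with basis `bT`: `x ∈ T ⊗ K ↔` all coordinates of `x` lie in `K`);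
* `injective_baseChange_subtype` : `T ⊗ K → T ⊗ M` is injective (`T` flat);
  `injective_baseChange` : `f` injective `⇒ f.baseChange T` injective (`T` flat);
  `injective_baseChange_of_basis` : the same for `T` free with a finite basis (coordinates);
* `ker_baseChange` : `ker (β.baseChange T) = T ⊗ ker β` (`T` flat); `baseChange_eq_zero_iff`;
* `baseChange_mem_tensorSub` : `f K ⊆ K' ⇒ (f.baseChange T) (T ⊗ K) ⊆ T ⊗ K'`;
* `baseChange_eq_zero_of_mem_tensorSub` : `f = 0` on `K ⇒ f.baseChange T = 0` on `T ⊗ K`;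
* `baseChange_cubic` : the cubic expression `(f₁ - a)(f₂ - 1)(f₃ - 1)` commutes with base change;
  `cubic_baseChange_eq_zero_of_ker` : if the cubic kills `ker β` then the base-changed cubic
  (scalar `algebraMap Z T a`) kills `ker (β.baseChange T)` — the `hnew` step of
  `Alg16.cubic_of_halves`, componentwise.
-/
import Mathlib
import Fermat.Agent.S33P.Coord22.Coord

set_option autoImplicit false
set_option linter.unusedSectionVars false

open TensorProduct

namespace Fermat.Agent.S33P.Coord22

variable {Z : Type*} [CommRing Z] (T : Type*) [CommRing T] [Algebra Z T]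
  {M : Type*} [AddCommGroup M] [Module Z M] {M'' : Type*} [AddCommGroup M''] [Module Z M'']

/-- "`T ⊗ K`" as a `T`-submodule of `T ⊗[Z] M`: the image of `T ⊗[Z] K → T ⊗[Z] M`. -/
def tensorSub (K : Submodule Z M) : Submodule T (T ⊗[Z] M) :=
  LinearMap.range (K.subtype.baseChange T)

variable {T}

theorem mem_tensorSub {K : Submodule Z M} {x : T ⊗[Z] M} :
    x ∈ tensorSub T K ↔ ∃ w : T ⊗[Z] K, K.subtype.baseChange T w = x := Iff.rfl

theorem tmul_mem_tensorSub {K : Submodule Z M} (t : T) {k : M} (hk : k ∈ K) :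
    t ⊗ₜ[Z] k ∈ tensorSub T K :=
  ⟨t ⊗ₜ[Z] (⟨k, hk⟩ : K), by rw [LinearMap.baseChange_tmul]; rfl⟩

theorem tensorSub_eq_span (K : Submodule Z M) :
    tensorSub T K = Submodule.span T {x | ∃ k ∈ K, x = (1 : T) ⊗ₜ[Z] k} := by
  apply le_antisymm
  · rintro _ ⟨w, rfl⟩
    induction w using TensorProduct.induction_on with
    | zero => rw [map_zero]; exact Submodule.zero_mem _
    | tmul t k =>
      rw [LinearMap.baseChange_tmul]
      have h1 : t ⊗ₜ[Z] (K.subtype k) = t • ((1 : T) ⊗ₜ[Z] (k : M)) := by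
        rw [TensorProduct.smul_tmul', smul_eq_mul, mul_one]; rfl
      rw [h1]
      exact Submodule.smul_mem _ _ (Submodule.subset_span ⟨k, k.2, rfl⟩)
    | add x y hx hy => rw [map_add]; exact Submodule.add_mem _ hx hy
  · rw [Submodule.span_le]
    rintro _ ⟨k, hk, rfl⟩
    exact tmul_mem_tensorSub 1 hk

theorem tensorSub_mono {K K' : Submodule Z M} (h : K ≤ K') : tensorSub T K ≤ tensorSub T K' := by
  rw [tensorSub_eq_span, tensorSub_eq_span]
  refine Submodule.span_mono ?_
  rintro _ ⟨k, hk, rfl⟩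
  exact ⟨k, h hk, rfl⟩

/-- `f` injective `⇒ f.baseChange T` injective, for `T` flat. -/
theorem injective_baseChange [Module.Flat Z T] (f : M →ₗ[Z] M'') (hf : Function.Injective f) :
    Function.Injective (f.baseChange T) := by
  rw [LinearMap.baseChange_eq_ltensor]
  exact Module.Flat.lTensor_preserves_injective_linearMap f hf

/-- `T ⊗ K → T ⊗ M` is injective for `T` flat. -/
theorem injective_baseChange_subtype [Module.Flat Z T] (K : Submodule Z M) :
    Function.Injective (K.subtype.baseChange T) :=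
  injective_baseChange K.subtype K.injective_subtype

/-- **Stability**: if `f K ⊆ K'` then `(f.baseChange T) (T ⊗ K) ⊆ T ⊗ K'`. -/
theorem baseChange_mem_tensorSub (f : M →ₗ[Z] M'') {K : Submodule Z M} {K' : Submodule Z M''}
    (h : ∀ k ∈ K, f k ∈ K') {x : T ⊗[Z] M} (hx : x ∈ tensorSub T K) :
    f.baseChange T x ∈ tensorSub T K' := by
  rw [tensorSub_eq_span] at hx
  refine Submodule.span_induction ?_ ?_ ?_ ?_ hx
  · rintro _ ⟨k, hk, rfl⟩
    rw [LinearMap.baseChange_tmul]
    exact tmul_mem_tensorSub 1 (h k hk)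
  · rw [map_zero]; exact Submodule.zero_mem _
  · intro x y _ _ hx hy
    rw [map_add]; exact Submodule.add_mem _ hx hy
  · intro t x _ hx
    rw [map_smul]; exact Submodule.smul_mem _ _ hx

/-- If `f` kills `K` then `f.baseChange T` kills `T ⊗ K`. -/
theorem baseChange_eq_zero_of_mem_tensorSub (f : M →ₗ[Z] M'') {K : Submodule Z M}
    (h : ∀ k ∈ K, f k = 0) {x : T ⊗[Z] M} (hx : x ∈ tensorSub T K) :
    f.baseChange T x = 0 := by
  rw [tensorSub_eq_span] at hx
  refine Submodule.span_induction ?_ ?_ ?_ ?_ hx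
  · rintro _ ⟨k, hk, rfl⟩
    rw [LinearMap.baseChange_tmul, h k hk, TensorProduct.tmul_zero]
  · rw [map_zero]
  · intro x y _ _ hx hy
    rw [map_add, hx, hy, add_zero]
  · intro t x _ hx
    rw [map_smul, hx, smul_zero]

/-- **`ker (β.baseChange T) = T ⊗ ker β`** for `T` flat. -/
theorem ker_baseChange [Module.Flat Z T] (β : M →ₗ[Z] M'') :
    LinearMap.ker (β.baseChange T) = tensorSub T (LinearMap.ker β) := by
  have hex := Module.Flat.lTensor_exact T (LinearMap.exact_subtype_ker_map β)
  ext x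
  rw [LinearMap.mem_ker, mem_tensorSub]
  have h1 : β.baseChange T x = (β.lTensor T) x := by rw [LinearMap.baseChange_eq_ltensor]
  rw [h1, hex x]
  constructor
  · rintro ⟨w, hw⟩
    exact ⟨w, by rw [LinearMap.baseChange_eq_ltensor]; exact hw⟩
  · rintro ⟨w, hw⟩
    exact ⟨w, by rw [LinearMap.baseChange_eq_ltensor] at hw; exact hw⟩

theorem baseChange_eq_zero_iff [Module.Flat Z T] (β : M →ₗ[Z] M'') (x : T ⊗[Z] M) :
    β.baseChange T x = 0 ↔ x ∈ tensorSub T (LinearMap.ker β) := by
  rw [← ker_baseChange, LinearMap.mem_ker]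

/-! ### Through coordinates (`T` free with a finite basis) -/

section Coord

variable {ι : Type*} [Fintype ι] (bT : Module.Basis ι Z T)

/-- **`x ∈ T ⊗ K` iff all the coordinates of `x` lie in `K`.** -/
theorem mem_tensorSub_iff_coord (K : Submodule Z M) (x : T ⊗[Z] M) :
    x ∈ tensorSub T K ↔ ∀ j, coord bT j x ∈ K := by
  constructor
  · intro hx j
    rw [tensorSub_eq_span] at hx
    refine Submodule.span_induction (p := fun x _ => ∀ j, coord bT j x ∈ K) ?_ ?_ ?_ ?_ hx j
    · rintro _ ⟨k, hk, rfl⟩ j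
      rw [coord_tmul]
      exact K.smul_mem _ hk
    · intro j
      rw [map_zero]
      exact K.zero_mem
    · intro x y _ _ hx hy j
      rw [map_add]
      exact K.add_mem (hx j) (hy j)
    · intro t x _ hx i
      rw [coord_smul]
      exact K.sum_mem fun j _ => K.smul_mem _ (hx j)
  · intro h
    rw [eq_sum_tmul_coord bT x]
    exact Submodule.sum_mem _ fun j _ => tmul_mem_tensorSub (bT j) (h j)

include bT in
/-- `f` injective `⇒ f.baseChange T` injective, for `T` free with a finite basis. -/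
theorem injective_baseChange_of_basis (f : M →ₗ[Z] M'') (hf : Function.Injective f) :
    Function.Injective (f.baseChange T) := by
  rw [injective_iff_map_eq_zero]
  intro x hx
  rw [baseChange_eq_zero_iff_coord bT] at hx
  exact eq_zero_of_coord bT x fun j => hf (by rw [hx j, map_zero])

end Coord

/-! ### The cubic expression -/

section Cubic

/-- Base change of endomorphisms commutes with the cubic expression `(f₁ - a)(f₂ - 1)(f₃ - 1)`. -/
theorem baseChange_cubic (f₁ f₂ f₃ : Module.End Z M) (a : Z) :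
    LinearMap.baseChange T ((f₁ - a • (1 : Module.End Z M)) * (f₂ - 1) * (f₃ - 1)) =
      (LinearMap.baseChange T f₁ - a • (1 : Module.End T (T ⊗[Z] M))) *
        (LinearMap.baseChange T f₂ - 1) * (LinearMap.baseChange T f₃ - 1) := by
  rw [LinearMap.baseChange_mul, LinearMap.baseChange_mul, LinearMap.baseChange_sub,
    LinearMap.baseChange_sub, LinearMap.baseChange_sub, LinearMap.baseChange_smul,
    LinearMap.baseChange_one]

/-- On `T ⊗[Z] M` the `Z`-scalar `a` is the `T`-scalar `algebraMap Z T a`. -/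
theorem smul_one_eq_algebraMap_smul_one (a : Z) :
    a • (1 : Module.End T (T ⊗[Z] M)) = algebraMap Z T a • (1 : Module.End T (T ⊗[Z] M)) := by
  ext x
  simp only [LinearMap.smul_apply, Module.End.one_apply,
    TensorProduct.AlgebraTensorModule.curry_apply, TensorProduct.curry_apply,
    LinearMap.coe_restrictScalars, algebraMap_smul]

variable {ι : Type*} [Fintype ι] (bT : Module.Basis ι Z T)

include bT in
/-- **The cubic identity passes from `ker β` to `ker (β.baseChange T)`** (one component of the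
hypothesis `hnew` of `Alg16.cubic_of_halves`): if `(f₁ - a)(f₂ - 1)(f₃ - 1)` kills `ker β`, then
`(f₁_T - algebraMap a)(f₂_T - 1)(f₃_T - 1)` kills `ker (β.baseChange T)`. -/
theorem cubic_baseChange_eq_zero_of_ker (β : M →ₗ[Z] M'') (f₁ f₂ f₃ : Module.End Z M) (a : Z)
    (h : ∀ m, β m = 0 → (f₁ - a • (1 : Module.End Z M)) ((f₂ - 1) ((f₃ - 1) m)) = 0)
    (x : T ⊗[Z] M) (hx : β.baseChange T x = 0) :
    (LinearMap.baseChange T f₁ - algebraMap Z T a • (1 : Module.End T (T ⊗[Z] M)))
      ((LinearMap.baseChange T f₂ - 1) ((LinearMap.baseChange T f₃ - 1) x)) = 0 := by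
  have h1 := baseChange_eq_zero_of_ker bT β
    ((f₁ - a • (1 : Module.End Z M)) * (f₂ - 1) * (f₃ - 1)) (fun m hm => h m hm) x hx
  rw [baseChange_cubic, smul_one_eq_algebraMap_smul_one] at h1
  exact h1

end Cubic

end Fermat.Agent.S33P.Coord22
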